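import Fermat.Agent.LT.Adelic.Whittaker
import Fermat.Agent.LT.Adelic.IdeleClasses
import Mathlib.RingTheory.FractionalIdeal.Norm
import Mathlib.NumberTheory.NumberField.FractionalIdeal

/-!
# Hecke's count of coefficients, and the norm of an idele
-/

set_option autoImplicit false

noncomputable section

namespace Fermat.Agent.LT.Descent.Moment

open Fermat.Agent.LT.Adelic NumberField IsDedekindDomain
open scoped Real nonZeroDivisors

variable {K : Type*} [Field K] [NumberField K] {ι : Type*} [Fintype ι] [DecidableEq ι]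
  {Φ : Frame K ι} {U : Subgroup (GfK K)} {φ : Space Φ U → ℂ}

/-- Bessel's inequality at one height. -/
theorem sum_sq_mul_whitHeight_le (hU : IsLevel U) (hφ : LT.IsCuspEigen φ) {C : ℝ}
    (hC : ∀ x, ‖φ x‖ ≤ C) (y : Yf U) {r : ι → ℝ} (hr : ∀ i, 0 < r i) (T : Finset K) :
    ∑ α ∈ T, (‖whitCoeff φ y α‖ * whitHeight Φ α r) ^ 2 ≤ C ^ 2 := by
  have h := hφ.isWhittakerAt hU y
  obtain ⟨N, hN, hs⟩ := h.support
  have hsupp : ∀ α, α ∉ Set.range (freqOf (K := K) N) → whitCoeff φ y α = 0 := fun α hα => by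
    by_contra hne
    obtain ⟨k, hk⟩ := exists_eq_freqOf hN (hs α hne)
    exact hα ⟨k, hk.symm⟩
  set c : (LatIdx K → ℤ) → ℂ :=
    fun k => whitCoeff φ y (freqOf N k) * (whitHeight Φ (freqOf N k) r : ℂ)
  have hsum : ∀ t : LatIdx K → ℝ, HasSum (fun k => c k * Poisson.eC (∑ j, (k j : ℝ) * t j))
      (φ (Space.mk (hpt (latPt Φ N t) r) y)) := by
    intro t
    have h1 := h.hasSum (hpt (latPt Φ N t) r)
    rw [← (freqOf_injective hN).hasSum_iff
      (fun α hα => by rw [hsupp α hα, zero_mul])] at h1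
    refine h1.congr_fun fun k => ?_
    simp only [c, Function.comp_apply, whit_apply_latPt hN _ _ hr, mul_assoc]
  have hnorm : Summable fun k => ‖c k‖ := by
    refine (summable_norm_iff.mpr (hsum 0).summable).congr fun k => ?_
    simp [norm_eC]
  have hC0 : 0 ≤ C := (norm_nonneg _).trans (hC (Space.mk (fun _ => HSpace.base) y))
  have key := RankinSelberg.sum_sq_le_of_bounded (d := LatIdx K)
    (k := fun k : LatIdx K → ℤ => k) Function.injective_id hnorm hC0
    (fun t => by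
      refine le_of_eq_of_le ?_ (hC (Space.mk (hpt (latPt Φ N t) r) y))
      congr 1
      rw [← (hsum t).tsum_eq]
      refine tsum_congr fun k => ?_
      congr 1
      rw [Poisson.eC]
      congr 1
      push_cast
      rw [Finset.mul_sum, Finset.mul_sum]
      refine Finset.sum_congr rfl fun j _ => ?_
      ring)
    (T.preimage (freqOf N) (freqOf_injective hN).injOn)
  refine le_of_eq_of_le ?_ key
  symm
  refine (Finset.sum_congr rfl fun k _ => ?_).trans (Finset.sum_preimage (freqOf N) T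
    (freqOf_injective hN).injOn (fun α => (‖whitCoeff φ y α‖ * whitHeight Φ α r) ^ 2)
    fun α _ hα => by simp [hsupp α hα])
  rw [norm_mul, Complex.norm_real, Real.norm_of_nonneg (whitHeight_nonneg _ fun i => (hr i).le)]

/-- Hecke's bound: linearly many coefficients, for a field with one infinite place. -/
theorem exists_sum_sq_le_linear [Unique ι] (hU : IsLevel U) (hφ : LT.IsCuspEigen φ) :
    ∃ C : ℝ, 0 ≤ C ∧ ∀ (y : Yf U) (T : Finset K) (X : ℝ), 0 < X →
      (∀ α ∈ T, ∏ i, ‖Φ.emb i α‖ ^ 2 ≤ X) → ∑ α ∈ T, ‖whitCoeff φ y α‖ ^ 2 ≤ C * X := by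
  obtain ⟨C, hC⟩ := hφ.bounded
  set k := Theta.besselK0 (4 * π)
  have hk : 0 < k := Theta.besselK0_pos (by positivity)
  refine ⟨C ^ 2 / k ^ 2, by positivity, fun y T X hX hT => ?_⟩
  set s := (Real.sqrt X)⁻¹
  have hs : 0 < s := inv_pos.mpr (Real.sqrt_pos.mpr hX)
  have hle : ∀ α ∈ T, ‖whitCoeff φ y α‖ * (s * k) ≤
      ‖whitCoeff φ y α‖ * whitHeight Φ α (fun _ => s) := by
    intro α hα
    rcases eq_or_ne α 0 with rfl | h0
    · rw [(hφ.isWhittakerAt hU y).zero, norm_zero, zero_mul, zero_mul]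
    refine mul_le_mul_of_nonneg_left ?_ (norm_nonneg _)
    rw [whitHeight, Fintype.prod_unique]
    refine mul_le_mul_of_nonneg_left ?_ hs.le
    have ha : 0 < ‖Φ.emb default α‖ := norm_pos_iff.mpr (by simpa using h0)
    have ha' : ‖Φ.emb default α‖ ≤ Real.sqrt X := by
      have := hT α hα
      rw [Fintype.prod_unique] at this
      exact Real.le_sqrt_of_sq_le this
    refine Theta.antitoneOn_besselK0 (Set.mem_Ioi.mpr (by positivity))
      (Set.mem_Ioi.mpr (by positivity)) ?_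
    rw [mul_assoc (4 * π)]
    refine mul_le_of_le_one_right (by positivity) ?_
    rw [← div_eq_mul_inv, div_le_one (Real.sqrt_pos.mpr hX)]
    exact ha'
  have h := (Finset.sum_le_sum fun α hα => pow_le_pow_left₀ (by positivity) (hle α hα) 2).trans
    (sum_sq_mul_whitHeight_le hU hφ hC y (fun _ => hs) T)
  simp only [mul_pow, ← Finset.sum_mul] at h
  have hs2 : s ^ 2 = X⁻¹ := by rw [inv_pow, Real.sq_sqrt hX.le]
  rw [hs2] at h
  rw [div_mul_eq_mul_div, le_div_iff₀ (by positivity)]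
  calc (∑ α ∈ T, ‖whitCoeff φ y α‖ ^ 2) * k ^ 2
      = ((∑ α ∈ T, ‖whitCoeff φ y α‖ ^ 2) * (X⁻¹ * k ^ 2)) * X := by field_simp
    _ ≤ C ^ 2 * X := mul_le_mul_of_nonneg_right h hX.le

theorem ideleIdeal_mul (s t : (FiniteAdeleRing (𝓞 K) K)ˣ) :
    ideleIdeal (s * t) = ideleIdeal s * ideleIdeal t := by
  rw [← FractionalIdeal.finprod_heightOneSpectrum_factorization' K
    (mul_ne_zero (ideleIdeal_ne_zero s) (ideleIdeal_ne_zero t)), ideleIdeal]
  refine finprod_congr fun v => ?_
  rw [FractionalIdeal.count_mul K v (ideleIdeal_ne_zero s) (ideleIdeal_ne_zero t), count_ideleIdeal,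
    count_ideleIdeal, ordAt_mul]

theorem ideleIdeal_one : ideleIdeal (1 : (FiniteAdeleRing (𝓞 K) K)ˣ) = 1 := by
  refine finprod_eq_one_of_forall_eq_one fun v => ?_
  rw [ordAt, Units.val_one, coe_apply_one, map_one, WithZero.log_one, neg_zero, zpow_zero]

/-- The absolute norm of an idele, as a homomorphism. -/
def ideleNorm : (FiniteAdeleRing (𝓞 K) K)ˣ →* ℝ where
  toFun t := (FractionalIdeal.absNorm (ideleIdeal t) : ℝ)
  map_one' := by rw [ideleIdeal_one, map_one, Rat.cast_one]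
  map_mul' s t := by rw [ideleIdeal_mul, map_mul, Rat.cast_mul]

theorem ideleNorm_pos (t : (FiniteAdeleRing (𝓞 K) K)ˣ) : 0 < ideleNorm t := by
  refine lt_of_le_of_ne ?_ fun h => ideleIdeal_ne_zero t ?_
  · show (0 : ℝ) ≤ (FractionalIdeal.absNorm (ideleIdeal t) : ℝ)
    exact_mod_cast FractionalIdeal.absNorm_nonneg _
  · have h' : (FractionalIdeal.absNorm (ideleIdeal t) : ℝ) = 0 := h.symm
    exact FractionalIdeal.absNorm_eq_zero_iff.mp (by exact_mod_cast h')

theorem ideleNorm_of_isUnitIdele {u : (FiniteAdeleRing (𝓞 K) K)ˣ} (hu : IsUnitIdele u) :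
    ideleNorm u = 1 := by
  show (FractionalIdeal.absNorm (ideleIdeal u) : ℝ) = 1
  rw [show ideleIdeal u = 1 from finprod_eq_one_of_forall_eq_one fun v => by
    rw [ordAt, hu v, WithZero.log_one, neg_zero, zpow_zero], map_one, Rat.cast_one]

theorem ideleNorm_principalIdele (x : Kˣ) :
    ideleNorm (principalIdele x : (FiniteAdeleRing (𝓞 K) K)ˣ) = |(Algebra.norm ℚ (x : K) : ℝ)| := by
  show (FractionalIdeal.absNorm (ideleIdeal _) : ℝ) = _
  have hne : FractionalIdeal.spanSingleton (𝓞 K)⁰ (x : K) ≠ 0 := by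
    rw [FractionalIdeal.spanSingleton_ne_zero_iff]; exact x.ne_zero
  rw [show ideleIdeal (principalIdele x : (FiniteAdeleRing (𝓞 K) K)ˣ) =
      FractionalIdeal.spanSingleton (𝓞 K)⁰ (x : K) by
    conv_rhs => rw [← FractionalIdeal.finprod_heightOneSpectrum_factorization' K hne]
    exact finprod_congr fun v => by rw [ordAt_principalIdele],
    FractionalIdeal.absNorm_span_singleton, Rat.cast_abs]

theorem ordAt_uniformiser {v : HeightOneSpectrum (𝓞 K)} {ϖ : (FiniteAdeleRing (𝓞 K) K)ˣ}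
    (hϖ : IsUniformiserAt v ϖ) (w : HeightOneSpectrum (𝓞 K)) [Decidable (w = v)] :
    ordAt ϖ w = if w = v then 1 else 0 := by
  split_ifs with h
  · subst h; rw [ordAt, hϖ.1, WithZero.log_exp, neg_neg]
  · rw [ordAt, hϖ.2 w h, map_one, WithZero.log_one, neg_zero]

theorem ideleNorm_uniformiser {v : HeightOneSpectrum (𝓞 K)} {ϖ : (FiniteAdeleRing (𝓞 K) K)ˣ}
    (hϖ : IsUniformiserAt v ϖ) : ideleNorm ϖ = (Ideal.absNorm v.asIdeal : ℝ) := by
  classical
  show (FractionalIdeal.absNorm (ideleIdeal ϖ) : ℝ) = _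
  have h : ideleIdeal ϖ = (v.asIdeal : FractionalIdeal (𝓞 K)⁰ K) := by
    rw [ideleIdeal, finprod_eq_single _ v fun w hw => by
      rw [ordAt_uniformiser hϖ, if_neg hw, zpow_zero], ordAt_uniformiser hϖ, if_pos rfl, zpow_one]
  rw [h, FractionalIdeal.coeIdeal_absNorm, Rat.cast_natCast]

end Fermat.Agent.LT.Descent.Moment

end
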